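import Fermat.Agent.ZTqb.Max
import Fermat.Agent.HeckeHom.Theta

/-!
# `T_q² - (q+1)²` is injective on parabolic homomorphisms
-/

set_option autoImplicit false
set_option linter.unusedSectionVars false

noncomputable section

open Matrix.SpecialLinearGroup UpperHalfPlane CongruenceSubgroup ModularCurve.Period
open scoped MatrixGroups

namespace Fermat.Agent.ZTqb

open Fermat.Agent.HeckeHom

variable {M : ℕ} [NeZero M] {q : ℕ}

/-- over `ℂ` -/
theorem injective_complex (hq : q.Prime) (hqM : ¬ q ∣ M) (hES : ES M)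
    (φ : Additive (Gamma0 M) →+ ℂ) (hφ : φ ∈ parabolicHoms ℂ (Gamma0 M) ℂ)
    (h : heckeHom hq hqM ℂ (heckeHom hq hqM ℂ φ) = ((q + 1 : ℂ) ^ 2) • φ) : φ = 0 := by
  rw [← hES.2] at hφ
  obtain ⟨⟨f, g⟩, rfl⟩ := hφ
  rw [← periodHomPair_heckeTLin hq hqM (f, g), ← periodHomPair_heckeTLin, ← map_smul] at h
  have h1 := hES.1 h
  have hf : f = 0 := cusp_eq_zero f hq hqM (congrArg Prod.fst h1)
  have hg : g = 0 := cusp_eq_zero g hq hqM (congrArg Prod.snd h1)
  rw [hf, hg]
  exact map_zero _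

/-- over `ℤ` -/
theorem injective_int (hq : q.Prime) (hqM : ¬ q ∣ M) (hES : ES M)
    (φ : Additive (Gamma0 M) →+ ℤ) (hφ : φ ∈ parabolicHoms ℤ (Gamma0 M) ℤ)
    (h : heckeHom hq hqM ℤ (heckeHom hq hqM ℤ φ) = ((q + 1) ^ 2 : ℕ) • φ) : φ = 0 := by
  have h1 : (Int.castAddHom ℂ).comp φ = 0 := by
    refine injective_complex hq hqM hES _ (fun γ hγ => ?_) ?_
    · rw [AddMonoidHom.comp_apply, hφ γ hγ, map_zero]
    · rw [heckeHom_comp, heckeHom_comp, h]
      refine AddMonoidHom.ext fun x => ?_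
      simp
  refine AddMonoidHom.ext fun x => ?_
  have h2 := DFunLike.congr_fun h1 x
  simpa using h2

section General

variable {A : Type*} [AddCommGroup A] [IsAddTorsionFree A]

theorem exists_decomp' {G : Type*} [Group G] [Group.FG G] (ψ : Additive G →+ A) :
    ∃ (n : ℕ) (a : Fin n → A) (φ : Fin n → (Additive G →+ ℤ)), LinearIndependent ℤ a ∧
      (∀ g, ψ g = 0 → ∀ i, φ i g = 0) ∧ ∀ g, ψ g = ∑ i, φ i g • a i := by
  have h1 : AddGroup.FG (Additive G) := inferInstance
  have h2 : AddGroup.FG ψ.range := inferInstance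
  have h3 : Module.Finite ℤ ψ.range := Module.Finite.iff_addGroup_fg.mpr h2
  have h4 : Module.Free ℤ ψ.range := inferInstance
  let b := Module.finBasis ℤ ψ.range
  refine ⟨_, fun i => (b i : A), fun i =>
    ((b.coord i).toAddMonoidHom).comp ψ.rangeRestrict, ?_, fun g hg i => ?_, fun g => ?_⟩
  · exact b.linearIndependent.map' (ψ.range.subtype.toIntLinearMap)
      (LinearMap.ker_eq_bot.2 Subtype.val_injective)
  · have : ψ.rangeRestrict g = 0 := Subtype.ext hg
    rw [AddMonoidHom.comp_apply, this, map_zero]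
  · have h := b.sum_repr (ψ.rangeRestrict g)
    have h' := congrArg Subtype.val h
    rw [AddSubmonoidClass.coe_finsetSum] at h'
    exact h'.symm

/-- over an arbitrary torsion-free group -/
theorem injective_general (hq : q.Prime) (hqM : ¬ q ∣ M) (hES : ES M)
    (φ : Additive (Gamma0 M) →+ A) (hφ : φ ∈ parabolicHoms ℤ (Gamma0 M) A)
    (h : heckeHom hq hqM A (heckeHom hq hqM A φ) = ((q + 1) ^ 2 : ℕ) • φ) : φ = 0 := by
  obtain ⟨n, a, ψ, ha, hpar, hdec⟩ := exists_decomp' φ
  have hφ' : φ = ∑ i, ((smulAddHom ℤ A).flip (a i)).comp (ψ i) := by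
    refine AddMonoidHom.ext fun g => ?_
    rw [AddMonoidHom.finsetSum_apply]
    exact hdec g
  have hH : ∀ χ : Fin n → (Additive (Gamma0 M) →+ ℤ),
      heckeHom hq hqM A (∑ i, ((smulAddHom ℤ A).flip (a i)).comp (χ i)) =
        ∑ i, ((smulAddHom ℤ A).flip (a i)).comp (heckeHom hq hqM ℤ (χ i)) := by
    intro χ
    rw [map_sum]
    exact Finset.sum_congr rfl fun i _ => heckeHom_comp hq hqM _ _
  have hzero : ∀ i, ψ i = 0 := by
    intro i
    refine injective_int hq hqM hES (ψ i) (fun γ hγ => ?_) ?_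
    · exact hpar _ (hφ γ hγ) i
    · refine AddMonoidHom.ext fun g => ?_
      have h1 : ∑ i, (heckeHom hq hqM ℤ (heckeHom hq hqM ℤ (ψ i)) g -
          ((q + 1) ^ 2 : ℕ) • ψ i g) • a i = 0 := by
        have h2 := DFunLike.congr_fun h g
        rw [hφ', hH, hH, AddMonoidHom.finsetSum_apply] at h2
        simp only [AddMonoidHom.comp_apply, AddMonoidHom.flip_apply, smulAddHom_apply,
          AddMonoidHom.nsmul_apply, AddMonoidHom.finsetSum_apply, Finset.smul_sum] at h2
        simp only [sub_smul, Finset.sum_sub_distrib, sub_eq_zero, smul_assoc]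
        exact h2
      have h3 := (Fintype.linearIndependent_iff.1 ha) _ h1 i
      rw [AddMonoidHom.nsmul_apply]
      exact sub_eq_zero.1 h3
  rw [hφ']
  simp [hzero]

end General

/-- **TQB** -/
theorem injective (hq : q.Prime) (hqM : ¬ q ∣ M) (hES : ES M) (R : Type*) [CommRing R]
    [IsDomain R] [CharZero R] (φ : parabolicHoms R (Gamma0 M) R)
    (h : heckeHom hq hqM R (heckeHom hq hqM R φ.1) = ((q : R) + 1) ^ 2 • φ.1) : φ = 0 := by
  have : IsAddTorsionFree R := inferInstance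
  refine Subtype.ext (injective_general hq hqM hES φ.1 φ.2 ?_)
  rw [h]
  refine AddMonoidHom.ext fun g => ?_
  simp

end Fermat.Agent.ZTqb
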