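import Fermat.Agent.HeckeHom.Mult
import Mathlib.NumberTheory.ModularForms.Bounds

/-!
# `T_q² - (q+1)²` is injective on cusp forms of weight two
-/

set_option autoImplicit false
set_option linter.unusedSectionVars false

noncomputable section

open Filter Topology Matrix.SpecialLinearGroup UpperHalfPlane CongruenceSubgroup ModularForm
open scoped Modular MatrixGroups ComplexConjugate ModularForm

namespace Fermat.Agent.ZTqb

/-- `|f(z)| Im z` -/
def ht (f : ℍ → ℂ) (z : ℍ) : ℝ := ‖f z‖ * z.im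

theorem ht_nonneg (f : ℍ → ℂ) (z : ℍ) : 0 ≤ ht f z := mul_nonneg (norm_nonneg _) z.im_pos.le

theorem ht_sq (f : ℍ → ℂ) (z : ℍ) : ht f z ^ 2 = ‖petersson 2 f f z‖ := by
  rw [petersson, ht, norm_mul, norm_mul, Complex.norm_conj, norm_zpow, Complex.norm_real,
    Real.norm_of_nonneg z.im_pos.le]
  norm_cast
  ring

theorem ht_slash (f : ℍ → ℂ) (g : GL (Fin 2) ℝ) (z : ℍ) :
    ht (f ∣[(2 : ℤ)] g) z = ht f (g • z) := by
  have h := congrArg norm (petersson_slash 2 f f g z)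
  rw [norm_mul, norm_σ, ← ht_sq, ← ht_sq] at h
  simp only [sub_self, zpow_zero, norm_one, one_mul] at h
  exact (sq_eq_sq₀ (ht_nonneg _ _) (ht_nonneg _ _)).1 h

theorem ht_add (f g : ℍ → ℂ) (z : ℍ) : ht (f + g) z ≤ ht f z + ht g z := by
  rw [ht, ht, ht, ← add_mul]
  exact mul_le_mul_of_nonneg_right (norm_add_le _ _) z.im_pos.le

theorem ht_sum {ι : Type*} (s : Finset ι) (f : ι → ℍ → ℂ) (z : ℍ) :
    ht (∑ i ∈ s, f i) z ≤ ∑ i ∈ s, ht (f i) z := by
  simp only [ht, ← Finset.sum_mul, Finset.sum_apply]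
  exact mul_le_mul_of_nonneg_right (norm_sum_le _ _) z.im_pos.le

theorem ht_heckeT (q : ℕ) (f : ℍ → ℂ) {S : ℝ} (hS : ∀ z, ht f z ≤ S) (z : ℍ) :
    ht (heckeT 2 q f) z ≤ q * S + ht f (heckeDiagMatrix q • z) := by
  rw [heckeT_def]
  refine (ht_add _ _ z).trans (add_le_add ((ht_sum _ _ z).trans ?_) (ht_slash _ _ _).le)
  calc ∑ j ∈ Finset.range q, ht (f ∣[(2 : ℤ)] heckeMatrix q j) z
      ≤ ∑ _j ∈ Finset.range q, S := Finset.sum_le_sum fun j _ => by
        rw [ht_slash]; exact hS _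
    _ = q * S := by rw [Finset.sum_const, Finset.card_range, nsmul_eq_mul]

theorem ht_heckeT_le (q : ℕ) (f : ℍ → ℂ) {S : ℝ} (hS : ∀ z, ht f z ≤ S) (z : ℍ) :
    ht (heckeT 2 q f) z ≤ (q + 1) * S := by
  have := ht_heckeT q f hS z
  have := hS (heckeDiagMatrix q • z)
  linarith

theorem ht_heckeT_sq (q : ℕ) (f : ℍ → ℂ) {S : ℝ} (hS : ∀ z, ht f z ≤ S)
    (hf : heckeT 2 q (heckeT 2 q f) = ((q + 1 : ℂ) ^ 2) • f) (z : ℍ) (hz : ht f z = S) :
    S ≤ ht f (heckeDiagMatrix q • (heckeDiagMatrix q • z)) := by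
  have h1 := ht_heckeT q (heckeT 2 q f) (ht_heckeT_le q f hS) z
  have h2 := ht_heckeT q f hS (heckeDiagMatrix q • z)
  have h3 : ht (heckeT 2 q (heckeT 2 q f)) z = (q + 1) ^ 2 * S := by
    rw [hf, ← hz]
    simp only [ht, Pi.smul_apply, smul_eq_mul, norm_mul, norm_pow]
    have : ‖(q + 1 : ℂ)‖ = q + 1 := by
      have : (q + 1 : ℂ) = ((q + 1 : ℝ) : ℂ) := by push_cast; rfl
      rw [this, Complex.norm_real, Real.norm_of_nonneg (by positivity)]
    rw [this]; ring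
  rw [h3] at h1
  nlinarith

section Cusp

variable {N : ℕ} [NeZero N] (f : CuspForm (Gamma0 N) 2)

theorem ht_invariant {γ : SL(2, ℤ)} (hγ : γ ∈ Gamma0 N) (z : ℍ) : ht f (γ • z) = ht f z := by
  have h1 : (mapGL ℝ γ : GL (Fin 2) ℝ) ∈ (Gamma0 N : Subgroup (GL (Fin 2) ℝ)) :=
    Subgroup.mem_map_of_mem _ hγ
  have h := SlashInvariantFormClass.norm_petersson_smul (k := 2) (τ := z) (f := f) (f' := f) h1
  rw [← ht_sq, ← ht_sq] at h
  exact (sq_eq_sq₀ (ht_nonneg _ _) (ht_nonneg _ _)).1 h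

theorem ht_continuous : Continuous (ht f) := by
  have h1 : Continuous (f : ℍ → ℂ) := (CuspFormClass.holo f).continuous
  exact h1.norm.mul continuous_im

open ConjAct Pointwise in
theorem zeroAt_petersson (g : SL(2, ℤ)) :
    IsZeroAtImInfty fun z : ℍ => petersson 2 f f (g • z) := by
  simp_rw [← UpperHalfPlane.petersson_slash_SL]
  have : ((toConjAct (g : GL (Fin 2) ℝ)⁻¹) • (Gamma0 N : Subgroup (GL (Fin 2) ℝ))).IsArithmetic := by
    simpa [(show Rat.castHom ℝ = algebraMap ℚ ℝ by rfl), map_inv, map_mapGL]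
      using! Subgroup.IsArithmetic.conj (Gamma0 N : Subgroup (GL (Fin 2) ℝ)) (mapGL ℚ g)⁻¹
  exact (CuspFormClass.zero_at_infty (CuspForm.translate f g)).petersson_isZeroAtImInfty_left 2 _
    (ModularForm.translate f g)

theorem exists_small (g : SL(2, ℤ)) {ε : ℝ} (hε : 0 < ε) :
    ∃ Y : ℝ, ∀ z : ℍ, Y ≤ z.im → ht f (g • z) < ε := by
  have h := zeroAt_petersson f g
  rw [IsZeroAtImInfty, ZeroAtFilter, tendsto_zero_iff_norm_tendsto_zero] at h
  have h1 := (tendsto_order.1 h).2 (ε ^ 2) (by positivity)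
  rw [atImInfty, eventually_comap, eventually_atTop] at h1
  obtain ⟨Y, hY⟩ := h1
  refine ⟨Y, fun z hz => ?_⟩
  have h2 := hY z.im hz z rfl
  rw [← ht_sq] at h2
  exact (sq_lt_sq₀ (ht_nonneg _ _) hε.le).1 h2

theorem exists_max (hf : f ≠ 0) : ∃ z₀ : ℍ, (∀ z, ht f z ≤ ht f z₀) ∧ 0 < ht f z₀ := by
  classical
  obtain ⟨z₁, hz₁⟩ : ∃ z, f z ≠ 0 := by
    by_contra h
    push Not at h
    exact hf (DFunLike.ext _ _ h)
  have hS : 0 < ht f z₁ := mul_pos (norm_pos_iff.2 hz₁) z₁.im_pos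
  choose Y hY using fun g : SL(2, ℤ) => exists_small f g hS
  let R : Set SL(2, ℤ) := Set.range (fun x : SL(2, ℤ) ⧸ Gamma0 N => (Quotient.out x)⁻¹)
  have hRfin : R.Finite := Set.finite_range _
  have hdec : ∀ δ : SL(2, ℤ), ∃ r ∈ R, ∃ γ ∈ Gamma0 N, δ = γ * r := by
    intro δ
    let x : SL(2, ℤ) ⧸ Gamma0 N := ((δ⁻¹ : SL(2, ℤ)) : SL(2, ℤ) ⧸ Gamma0 N)
    have hx : ((Quotient.out x : SL(2, ℤ)) : SL(2, ℤ) ⧸ Gamma0 N) = x := Quotient.out_eq' x
    rw [QuotientGroup.eq] at hx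
    refine ⟨(Quotient.out x)⁻¹, ⟨x, rfl⟩, δ * Quotient.out x, ?_, by group⟩
    have h2 := (Gamma0 N).inv_mem hx
    simpa using h2
  obtain ⟨B, hB⟩ := (hRfin.image Y).bddAbove
  have hB' : ∀ r ∈ R, ∀ z : ℍ, B ≤ z.im → ht f (r • z) < ht f z₁ := fun r hr z hz =>
    hY r z ((hB (Set.mem_image_of_mem _ hr)).trans hz)
  let K : Set ℍ := ⋃ r ∈ R, (fun z : ℍ => r • z) '' (ModularGroup.truncatedFundamentalDomain B)
  have hK : IsCompact K := hRfin.isCompact_biUnion fun r _ =>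
    (ModularGroup.isCompact_truncatedFundamentalDomain B).image (by
      simp only [ModularGroup.sl_moeb]
      fun_prop)
  -- every point is equivalent to a point of `K` or has small value
  have hall : ∀ z : ℍ, (∃ w ∈ K, ht f z = ht f w) ∨ ht f z < ht f z₁ := by
    intro z
    obtain ⟨g, hg⟩ := ModularGroup.exists_smul_mem_fd z
    obtain ⟨r, hr, γ, hγ, hgr⟩ := hdec g⁻¹
    have h1 : z = γ • (r • (g • z)) := by
      rw [← mul_smul, ← mul_smul, ← hgr]; simp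
    have h2 : ht f z = ht f (r • (g • z)) := by
      conv_lhs => rw [h1]
      exact ht_invariant f hγ _
    rcases le_total (g • z).im B with h3 | h3
    · left
      refine ⟨r • (g • z), ?_, h2⟩
      exact Set.mem_biUnion hr ⟨g • z, ⟨hg, h3⟩, rfl⟩
    · right
      rw [h2]
      exact hB' r hr _ h3
  have hKne : K.Nonempty := by
    rcases hall z₁ with ⟨w, hw, -⟩ | h
    · exact ⟨w, hw⟩
    · exact absurd h (lt_irrefl _)
  obtain ⟨z₀, hz₀, hmax⟩ := hK.exists_isMaxOn hKne (ht_continuous f).continuousOn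
  have h1 : ht f z₁ ≤ ht f z₀ := by
    rcases hall z₁ with ⟨w, hw, h⟩ | h
    · rw [h]; exact hmax hw
    · exact absurd h (lt_irrefl _)
  refine ⟨z₀, fun z => ?_, hS.trans_le h1⟩
  rcases hall z with ⟨w, hw, h⟩ | h
  · rw [h]; exact hmax hw
  · exact h.le.trans h1

/-- `T_q² - (q+1)²` is injective on cusp forms of weight two. -/
theorem cusp_eq_zero {q : ℕ} (hq : q.Prime) (hqN : ¬ q ∣ N)
    (h : CuspForm.heckeTLin 2 hq hqN (CuspForm.heckeTLin 2 hq hqN f) = ((q + 1 : ℂ) ^ 2) • f) :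
    f = 0 := by
  by_contra hf
  obtain ⟨z₀, hmax, hpos⟩ := exists_max f hf
  have hf' : heckeT 2 q (heckeT 2 q f) = ((q + 1 : ℂ) ^ 2) • (f : ℍ → ℂ) := by
    have := congrArg (fun g : CuspForm (Gamma0 N) 2 => (g : ℍ → ℂ)) h
    simpa using this
  have hstep : ∀ z : ℍ, ht f z = ht f z₀ →
      ht f (heckeDiagMatrix q • (heckeDiagMatrix q • z)) = ht f z₀ := fun z hz =>
    le_antisymm (hmax _) (ht_heckeT_sq q f hmax hf' z hz)
  have hseq : ∀ n : ℕ, ∃ z : ℍ, ht f z = ht f z₀ ∧ z.im = (q ^ 2 : ℝ) ^ n * z₀.im := by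
    intro n
    induction n with
    | zero => exact ⟨z₀, rfl, by simp⟩
    | succ n ih =>
      obtain ⟨z, hz, hz'⟩ := ih
      have him : ∀ w : ℍ, (heckeDiagMatrix q • w : ℍ).im = q * w.im := by
        intro w
        have := congrArg Complex.im (HeckeHom.coe_heckeDiag_smul hq.ne_zero w)
        simpa using this
      refine ⟨_, hstep z hz, ?_⟩
      rw [him, him, hz']
      ring
  obtain ⟨Y, hY⟩ := exists_small f 1 hpos
  have hq1 : (1 : ℝ) < q ^ 2 := by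
    have : (1 : ℝ) < q := by exact_mod_cast hq.one_lt
    nlinarith
  obtain ⟨n, hn⟩ := pow_unbounded_of_one_lt (Y / z₀.im) hq1
  obtain ⟨z, hz, hz'⟩ := hseq n
  have h1 : Y ≤ z.im := by
    rw [hz']
    rw [div_lt_iff₀ z₀.im_pos] at hn
    exact hn.le
  have h2 := hY z h1
  rw [one_smul, hz] at h2
  exact lt_irrefl _ h2

end Cusp

end Fermat.Agent.ZTqb
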